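/-
S40 / (ρ4) (helper2): the CONVERSE of `HeckeFaithful.hecke_faithful` on the lattice.

If an integral polynomial `P` in the `T_ℓ` (`ℓ ∤ N`, `ℓ ∉ S`) is zero in the prelude's Hecke algebra
`CuspForm.heckeAlgebra N 2 S` (i.e. `P(T) = 0` on `S₂(Γ₀(N))`), then `P(t) = 0` on the lattice
`Λ = parHomAdd N ℤ` of integral parabolic-elliptic homomorphisms.

Proof: `castHom ℂ : Λ → Hom(Γ₀(N), ℂ)` is injective with values in the parabolic homomorphisms,
every complex parabolic homomorphism is `periodHomPair N (f, g)` (Eichler–Shimura, S21), and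
`heckeAdd (periodHomPair (f, g)) = periodHomPair (T f, T g)` (`PeriodHecke.heckeAdd_periodHomPair`).

* `PairRel A A'` : the intertwining relation along `castHom ℂ ψ = periodHomPair N (f, g)`;
* `pairRel_polyAct` : `P(t)` on `Λ` and `P(T)` on cusp forms are intertwined;
* **`polyAct_eq_zero_of_aeval_eq_zero`**, `polyAct_eq_zero_iff` : the converse and the equivalence;
* `polyAct_tGood_eq_zero` : the same in the `TateData` shape (`HeckeIdx N S`, `tGood N`), i.e. the
  converse of the field `TateData.faithful` for `TateDataInst.tateData`.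
-/
import Mathlib
import Fermat.Agent.N4F.Adic.HeckeFaithful
import Fermat.Agent.N4F.Adic.TateDataInst

set_option autoImplicit false
set_option linter.unusedSectionVars false

open CongruenceSubgroup ModularCurve
open scoped TensorProduct MatrixGroups

noncomputable section

namespace Fermat.Agent.S40.J.ConverseFaithful

open Fermat.Agent.N4F.Tors.HeckeHom Fermat.Agent.N4F.Tors.HomLattice
  Fermat.Agent.N4F.Tors.Outputs Fermat.Agent.N4F.Tors.Occurrence Fermat.Agent.M2.ES
  Fermat.Agent.N4F.Adic.HeckeFaithful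

variable (N : ℕ) [NeZero N] (S : Set ℕ)

/-- `A` on the lattice and `A'` on cusp forms are intertwined along
`castHom ℂ ψ = periodHomPair N (f, g)`. -/
def PairRel (A : Module.End ℤ ↥(parHomAdd N ℤ))
    (A' : Module.End ℂ (CuspForm (Gamma0 N) 2)) : Prop :=
  ∀ (ψ : parHomAdd N ℤ) (f g : CuspForm (Gamma0 N) 2),
    castHom ℂ ψ.1 = periodHomPair N (f, g) →
      castHom ℂ (A ψ).1 = periodHomPair N (A' f, A' g)

variable {N}

theorem PairRel.add {A B : Module.End ℤ ↥(parHomAdd N ℤ)}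
    {A' B' : Module.End ℂ (CuspForm (Gamma0 N) 2)} (hA : PairRel N A A')
    (hB : PairRel N B B') : PairRel N (A + B) (A' + B') := by
  intro ψ f g h
  have h1 := hA ψ f g h
  have h2 := hB ψ f g h
  have e1 : ((A + B) ψ).1 = (A ψ).1 + (B ψ).1 := rfl
  have e2 : ((A' + B') f, (A' + B') g) = (A' f, A' g) + (B' f, B' g) := rfl
  rw [e1, map_add, h1, h2, e2, map_add]

theorem PairRel.mul {A B : Module.End ℤ ↥(parHomAdd N ℤ)}
    {A' B' : Module.End ℂ (CuspForm (Gamma0 N) 2)} (hA : PairRel N A A')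
    (hB : PairRel N B B') : PairRel N (A * B) (A' * B') := by
  intro ψ f g h
  exact hA (B ψ) (B' f) (B' g) (hB ψ f g h)

theorem pairRel_int (a : ℤ) :
    PairRel N (a • (1 : Module.End ℤ ↥(parHomAdd N ℤ)))
      (a • (1 : Module.End ℂ (CuspForm (Gamma0 N) 2))) := by
  intro ψ f g h
  have e1 : ((a • (1 : Module.End ℤ ↥(parHomAdd N ℤ))) ψ).1 = a • ψ.1 := rfl
  have e2 : ((a • (1 : Module.End ℂ (CuspForm (Gamma0 N) 2))) f,
      (a • (1 : Module.End ℂ (CuspForm (Gamma0 N) 2))) g) = a • (f, g) := rfl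
  rw [e1, map_zsmul, h, e2, map_zsmul]

theorem pairRel_hecke (ℓ : Nat.Primes) (hℓN : ¬ (ℓ : ℕ) ∣ N) :
    PairRel N (heckeLattice N ℓ hℓN) (CuspForm.heckeTLin 2 ℓ.2 hℓN) := by
  intro ψ f g h
  have : Fact (ℓ : ℕ).Prime := ⟨ℓ.2⟩
  rw [coe_heckeLattice]
  have h1 : castHom ℂ (heckeAddP N ℓ hℓN ψ.1) = heckeAddP N ℓ hℓN (castHom ℂ ψ.1) :=
    (heckeAddP_comp N ℓ hℓN (Int.castAddHom ℂ) ψ.1).symm
  rw [h1, h]
  exact Fermat.Agent.N4F.Tors.PeriodHecke.heckeAdd_periodHomPair N ℓ.2 hℓN f g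

variable (N)

/-- **The key intertwining**: `P(t)` on `Λ` matches `P(T)` on pairs of cusp forms. -/
theorem pairRel_polyAct (hcomm : ∀ i j : Idx N S, Commute (tLat N S i) (tLat N S j))
    (Q : MvPolynomial (Idx N S) ℤ) :
    PairRel N (polyAct (R := ℤ) (tLat N S) hcomm Q) (evalS N S Q) := by
  induction Q using MvPolynomial.induction_on with
  | C a =>
    have h1 : polyAct (R := ℤ) (tLat N S) hcomm (MvPolynomial.C a) =
        a • (1 : Module.End ℤ ↥(parHomAdd N ℤ)) := by
      rw [← MvPolynomial.algebraMap_eq, AlgHom.commutes, Algebra.algebraMap_eq_smul_one]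
    have h2 : evalS N S (MvPolynomial.C a) = a • (1 : Module.End ℂ (CuspForm (Gamma0 N) 2)) := by
      rw [← MvPolynomial.algebraMap_eq, AlgHom.commutes, Algebra.algebraMap_eq_smul_one]
    rw [h1, h2]
    exact pairRel_int a
  | add p q hp hq =>
    have h1 : polyAct (R := ℤ) (tLat N S) hcomm (p + q) =
        polyAct (R := ℤ) (tLat N S) hcomm p + polyAct (R := ℤ) (tLat N S) hcomm q :=
      map_add _ p q
    have h2 : evalS N S (p + q) = evalS N S p + evalS N S q := map_add _ p q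
    rw [h1, h2]
    exact hp.add hq
  | mul_X p i hp =>
    have h1 : polyAct (R := ℤ) (tLat N S) hcomm (p * MvPolynomial.X i) =
        polyAct (R := ℤ) (tLat N S) hcomm p * heckeLattice N i.1 i.2.1 := by
      rw [map_mul, polyAct_X]
    have h2 : evalS N S (p * MvPolynomial.X i) =
        evalS N S p * CuspForm.heckeTLin 2 i.1.2 i.2.1 := by
      rw [map_mul, evalS_X]
    rw [h1, h2]
    exact hp.mul (pairRel_hecke i.1 i.2.1)

/-- Every integral parabolic-elliptic homomorphism is, over `ℂ`, a pair of periods (S21). -/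
theorem exists_periodHomPair_eq (ψ : parHomAdd N ℤ) :
    ∃ f g : CuspForm (Gamma0 N) 2, castHom ℂ ψ.1 = periodHomPair N (f, g) := by
  have hmem : castHom ℂ ψ.1 ∈ Period.parabolicHoms ℂ (Gamma0 N) ℂ :=
    Fermat.Agent.N4F.Tors.ESHecke.castHom_mem_parabolicHoms N
      ⟨ψ.1, (Fermat.Agent.N4F.Tors.ESHecke.mem_killing_iff N (R := ℤ)).2 ψ.2⟩
  rw [← (Fermat.Agent.S21.result N).2] at hmem
  obtain ⟨⟨f, g⟩, hfg⟩ := hmem
  exact ⟨f, g, hfg.symm⟩

/-- **CONVERSE FAITHFULNESS**: an integral polynomial in the `T_ℓ` (`ℓ ∤ N`, `ℓ ∉ S`) which is zero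
in the Hecke algebra `heckeAlgebra N 2 S` kills the lattice `Λ = parHomAdd N ℤ`. -/
theorem polyAct_eq_zero_of_aeval_eq_zero
    (hcomm : ∀ i j : Idx N S, Commute (tLat N S i) (tLat N S j))
    (P : MvPolynomial (Idx N S) ℤ) (hP : MvPolynomial.aeval (tAlg N S) P = 0) :
    polyAct (R := ℤ) (tLat N S) hcomm P = 0 := by
  have hev : evalS N S P = 0 := by
    show (CuspForm.heckeAlgebra N 2 S).val (MvPolynomial.aeval (tAlg N S) P) = 0
    rw [hP, map_zero]
  refine LinearMap.ext fun ψ => Subtype.ext ?_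
  apply Fermat.Agent.N4F.Tors.ESHecke.castHom_injective_complex N
  obtain ⟨f, g, hfg⟩ := exists_periodHomPair_eq N ψ
  have h := pairRel_polyAct N S hcomm P ψ f g hfg
  rw [hev] at h
  have h0 : castHom ℂ ((polyAct (R := ℤ) (tLat N S) hcomm P ψ).1) = 0 := by
    rw [h]
    exact map_zero (periodHomPair N)
  rw [h0]
  symm
  have e : (((0 : Module.End ℤ ↥(parHomAdd N ℤ)) ψ : parHomAdd N ℤ) :
      Additive ↥(Gamma0 N) →+ ℤ) = 0 := rfl
  rw [e, map_zero]

/-- The lattice `Λ` and the Hecke algebra have the same relations. -/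
theorem polyAct_eq_zero_iff (hcomm : ∀ i j : Idx N S, Commute (tLat N S i) (tLat N S j))
    (P : MvPolynomial (Idx N S) ℤ) :
    polyAct (R := ℤ) (tLat N S) hcomm P = 0 ↔ MvPolynomial.aeval (tAlg N S) P = 0 :=
  ⟨hecke_faithful N S hcomm P, polyAct_eq_zero_of_aeval_eq_zero N S hcomm P⟩

/-- **Converse faithfulness in the `TateData` shape**: the converse of the field `faithful` of
`TateDataInst.tateData` (`Λ = parHomAdd N ℤ`, `t = tGood N`, index set `HeckeIdx N S`). -/
theorem polyAct_tGood_eq_zero (P : MvPolynomial (Fermat.Agent.N4F.Adic.HeckeIdx N S) ℤ)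
    (hP : MvPolynomial.aeval (fun i : Fermat.Agent.N4F.Adic.HeckeIdx N S =>
      (CuspForm.heckeAlgebra.T i.2.1 i.2.2.1 i.2.2.2 : CuspForm.heckeAlgebra N 2 S)) P = 0) :
    polyAct (R := ℤ)
      (fun i : Fermat.Agent.N4F.Adic.HeckeIdx N S => Fermat.Agent.N4F.Adic.TateDataInst.tGood N i.1)
      (fun i j => Fermat.Agent.N4F.Adic.TateDataInst.tGood_commute N i.1 j.1) P = 0 := by
  have hren := Fermat.Agent.N4F.Adic.TateDataInst.polyAct_rename
    (Fermat.Agent.N4F.Adic.TateDataInst.toPIdx N S) (tLat N S) (tLat_commute N S)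
    (fun i : Fermat.Agent.N4F.Adic.HeckeIdx N S => Fermat.Agent.N4F.Adic.TateDataInst.tGood N i.1)
    (fun i j => Fermat.Agent.N4F.Adic.TateDataInst.tGood_commute N i.1 j.1)
    (fun i => (Fermat.Agent.N4F.Adic.TateDataInst.tGood_of_good N i.2.1 i.2.2.1).symm) P
  rw [← hren]
  apply polyAct_eq_zero_of_aeval_eq_zero N S (tLat_commute N S)
  rw [MvPolynomial.aeval_rename]
  exact hP

end Fermat.Agent.S40.J.ConverseFaithful
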