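/-
S40 / (ρ4), file 1: THE ROTATION LEMMA WITH A MULTIPLIER.

If `f ∘ g = c • f` near a fixed point `z₀` of `g`, `g' z₀ = ε`, and `f` vanishes to finite order `m`
at `z₀`, then `c = ε ^ m`.  On `ℍ`: if `h (γ • z) = c * h z` for `γ ∈ SL(2, ℤ)` fixing `z₀`, and
`ordAt z₀ h = m`, then `c * (c z₀ + d) ^ (2 m) = 1`.

Also: an element of `SL(2, ℤ)` with `|trace| < 2` fixes a point of `ℍ`.
-/
import Mathlib
import Fermat.Agent.M2.OrdVal
import Fermat.Agent.M2.Stabilizer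

set_option autoImplicit false

noncomputable section

namespace Fermat.Agent.S40.J.MultRotation

open UpperHalfPlane Filter Topology MatrixGroups
open Fermat.Agent.M2 Fermat.Agent.M2.OrdVal
open scoped Manifold

/-- **Rotation lemma with a multiplier.** -/
theorem eq_pow_of_comp_eq_mul {f g : ℂ → ℂ} {z₀ ε c : ℂ} {m : ℕ}
    (hf : AnalyticAt ℂ f z₀) (hg : HasDerivAt g ε z₀) (hgz : g z₀ = z₀)
    (hfg : ∀ᶠ z in 𝓝 z₀, f (g z) = c * f z)
    (hord : analyticOrderAt f z₀ = m) : c = ε ^ m := by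
  obtain ⟨G, hGa, hG0, hFG⟩ := hf.analyticOrderAt_eq_natCast.mp hord
  have hgt : Tendsto g (𝓝 z₀) (𝓝 z₀) := by
    have := hg.continuousAt.tendsto
    rwa [hgz] at this
  have hFGg : ∀ᶠ z in 𝓝 z₀, f (g z) = (g z - z₀) ^ m • G (g z) := hgt.eventually hFG
  set k : ℂ → ℂ := dslope g z₀ with hk
  have hkc : ContinuousAt k z₀ := continuousAt_dslope_same.mpr hg.differentiableAt
  have hk0 : k z₀ = ε := by rw [hk, dslope_same, hg.deriv]
  have hkz : ∀ z, g z - z₀ = (z - z₀) * k z := by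
    intro z
    have := sub_smul_dslope g z₀ z
    rw [smul_eq_mul, hgz] at this
    exact this.symm
  have hne : ∀ᶠ z in 𝓝[≠] z₀, c * G z = k z ^ m * G (g z) := by
    have h1 : ∀ᶠ z in 𝓝[≠] z₀, (z - z₀) ^ m * (c * G z) = (z - z₀) ^ m * (k z ^ m * G (g z)) := by
      refine (hFG.and (hFGg.and hfg)).filter_mono nhdsWithin_le_nhds |>.mono ?_
      rintro z ⟨h1, h2, h3⟩
      simp only [smul_eq_mul] at h1 h2
      have e1 : (z - z₀) ^ m * (c * G z) = c * f z := by rw [h1]; ring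
      rw [e1, ← h3, h2, hkz z, mul_pow, mul_assoc]
    filter_upwards [h1, self_mem_nhdsWithin] with z hz hzne
    exact mul_left_cancel₀ (pow_ne_zero m (sub_ne_zero.mpr hzne)) hz
  have hlim1 : Tendsto (fun z => c * G z) (𝓝[≠] z₀) (𝓝 (c * G z₀)) :=
    (tendsto_const_nhds.mul hGa.continuousAt.tendsto).mono_left nhdsWithin_le_nhds
  have hGg : Tendsto (fun z => G (g z)) (𝓝 z₀) (𝓝 (G z₀)) :=
    (hGa.continuousAt.tendsto).comp hgt
  have hlim2 : Tendsto (fun z => k z ^ m * G (g z)) (𝓝[≠] z₀) (𝓝 (ε ^ m * G z₀)) := by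
    have hk' : Tendsto k (𝓝 z₀) (𝓝 ε) := by
      have := hkc.tendsto
      rwa [hk0] at this
    exact ((hk'.pow m).mul hGg).mono_left nhdsWithin_le_nhds
  have heq : c * G z₀ = ε ^ m * G z₀ := tendsto_nhds_unique (hlim1.congr' hne) hlim2
  exact mul_right_cancel₀ hG0 heq

/-- Rotation lemma with a multiplier on `ℍ`, for `GL₂(ℝ)⁺`. -/
theorem eq_pow_of_smul_eq_mul_GL {f : ℍ → ℂ} (hf : MDiff f) {g : GL (Fin 2) ℝ}
    (hg : 0 < g.val.det) {z₀ : ℍ} (hz : g • z₀ = z₀) {c : ℂ} (hc : ∀ z, f (g • z) = c * f z)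
    {m : ℕ} (hord : ordAt z₀ f = m) :
    c = ((g.val.det : ℂ) / denom g z₀ ^ 2) ^ m := by
  refine eq_pow_of_comp_eq_mul (f := f ∘ ofComplex)
    (g := fun w => ((g • ofComplex w : ℍ) : ℂ)) (z₀ := (z₀ : ℂ))
    (analyticAt_comp_ofComplex hf z₀) (z₀.hasStrictDerivAt_smul hg).hasDerivAt ?_ ?_ ?_
  · simp [ofComplex_apply, hz]
  · filter_upwards with w
    simp [Function.comp_apply, ofComplex_apply, hc]
  · rw [← hord, ordAt]

/-- Rotation lemma with a multiplier for `SL(2, ℤ)`. -/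
theorem mul_denom_pow_eq_one {f : ℍ → ℂ} (hf : MDiff f) (γ : SL(2, ℤ))
    {z₀ : ℍ} (hz : γ • z₀ = z₀) {c : ℂ} (hc : ∀ z, f (γ • z) = c * f z) {m : ℕ}
    (hord : ordAt z₀ f = m) :
    c * denom γ z₀ ^ (2 * m) = 1 := by
  have hdet : ((γ : GL (Fin 2) ℝ).val.det) = 1 := by
    have : ((γ : GL (Fin 2) ℝ).det).val = 1 := by simp
    rw [← Matrix.GeneralLinearGroup.val_det_apply, this]
  have h := eq_pow_of_smul_eq_mul_GL hf (g := (γ : GL (Fin 2) ℝ))
    (by rw [hdet]; exact one_pos) hz hc hord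
  rw [hdet] at h
  have hd : denom γ z₀ ≠ 0 := denom_ne_zero γ z₀
  rw [h, div_pow, ← pow_mul]
  have h2 : denom γ z₀ ^ (2 * m) ≠ 0 := pow_ne_zero _ hd
  field_simp
  simp

/-! ### Fixed points of elliptic elements -/

/-- An element of `SL(2, ℤ)` with `trace ^ 2 < 4` fixes a point of `ℍ`. -/
theorem exists_fixed_of_trace_sq_lt (γ : SL(2, ℤ))
    (ht : (γ : Matrix (Fin 2) (Fin 2) ℤ).trace ^ 2 < 4) : ∃ z₀ : ℍ, γ • z₀ = z₀ := by
  have hdet : γ 0 0 * γ 1 1 - γ 0 1 * γ 1 0 = 1 := by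
    have := γ.det_coe
    rw [Matrix.det_fin_two] at this
    exact this
  rw [Matrix.trace_fin_two] at ht
  set a : ℤ := γ 0 0 with ha
  set b : ℤ := γ 0 1 with hb
  set c : ℤ := γ 1 0 with hc
  set d : ℤ := γ 1 1 with hd
  have ht' : (a + d) ^ 2 < 4 := ht
  have hc0 : c ≠ 0 := by
    intro h0
    rw [h0, mul_zero, sub_zero] at hdet
    have h1 : a = 1 ∧ d = 1 ∨ a = -1 ∧ d = -1 := Int.mul_eq_one_iff_eq_one_or_neg_one.mp hdet
    rcases h1 with ⟨h1, h2⟩ | ⟨h1, h2⟩ <;> rw [h1, h2] at ht' <;> norm_num at ht'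
  have hcR : (c : ℝ) ≠ 0 := by exact_mod_cast hc0
  have htR : ((a : ℝ) + d) ^ 2 < 4 := by exact_mod_cast ht'
  have hdetR : (a : ℝ) * d - b * c = 1 := by exact_mod_cast hdet
  set s : ℝ := Real.sqrt (4 - ((a : ℝ) + d) ^ 2) with hs
  have hs0 : 0 < s := Real.sqrt_pos.mpr (by linarith)
  have hs2 : s ^ 2 = 4 - ((a : ℝ) + d) ^ 2 := Real.sq_sqrt (by linarith)
  set x : ℝ := ((a : ℝ) - d) / (2 * c) with hx
  set y : ℝ := s / (2 * |(c : ℝ)|) with hy
  have hy0 : 0 < y := div_pos hs0 (by positivity)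
  have hxc : 2 * (c : ℝ) * x = a - d := by
    rw [hx]; field_simp
  have hyc : (2 * (c : ℝ) * y) ^ 2 = 4 - ((a : ℝ) + d) ^ 2 := by
    rw [hy, ← hs2]
    have habs : |(c : ℝ)| ≠ 0 := abs_ne_zero.mpr hcR
    have : (2 * (c : ℝ) * (s / (2 * |(c : ℝ)|))) ^ 2 = s ^ 2 * ((c : ℝ) ^ 2 / |(c : ℝ)| ^ 2) := by
      field_simp
    rw [this, sq_abs, div_self (pow_ne_zero 2 hcR), mul_one]
  refine ⟨⟨(x : ℂ) + y * Complex.I, by simpa using hy0⟩, ?_⟩
  rw [Stab.smul_eq_iff]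
  simp only [Stab.nmr, Stab.eps]
  rw [← ha, ← hb, ← hc, ← hd]
  -- real and imaginary parts
  have hre : (a : ℝ) * x + b = x * (c * x + d) - y * (c * y) := by
    have h4c : (4 * (c : ℝ)) ≠ 0 := mul_ne_zero (by norm_num) hcR
    apply mul_left_cancel₀ h4c
    have e1 : (2 * (c : ℝ) * x) ^ 2 = ((a : ℝ) - d) ^ 2 := by rw [hxc]
    nlinarith [hxc, hyc, hdetR, e1]
  have him : (a : ℝ) * y = x * (c * y) + y * (c * x + d) := by
    have : y * (2 * (c : ℝ) * x) = y * ((a : ℝ) - d) := by rw [hxc]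
    linarith
  apply Complex.ext
  · simp only [Complex.add_re, Complex.mul_re, Complex.intCast_re, Complex.intCast_im,
      Complex.ofReal_re, Complex.ofReal_im, Complex.I_re, Complex.I_im, mul_zero, mul_one,
      sub_zero, zero_mul, add_zero, Complex.add_im, Complex.mul_im, zero_add]
    linarith [hre]
  · simp only [Complex.add_re, Complex.mul_re, Complex.intCast_re, Complex.intCast_im,
      Complex.ofReal_re, Complex.ofReal_im, Complex.I_re, Complex.I_im, mul_zero, mul_one,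
      sub_zero, zero_mul, add_zero, Complex.add_im, Complex.mul_im, zero_add]
    linarith [him]

end Fermat.Agent.S40.J.MultRotation
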