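/-
S40 / (ρ4), file 2: THE KUMMER CHARACTER KILLS THE ELEMENTS FIXING A POINT OF `ℍ`.

If ALL the orders of `u` at the places of `FC N` are divisible by `n` (not only the orders on `ℍ`),
the Kummer character of `u` kills every element of `Γ₀(N)` with a fixed point in `ℍ`:
the multiplier of `γ` on an `n`-th root `h` of `u` is `(c z₀ + d) ^ (-2 m)`, `m = ord_{z₀} h`
(rotation lemma with a multiplier), `e_{z₀} ∣ m` by the exact ramification of the dictionary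
(`RamPoint`), and `(c z₀ + d) ^ (2 e_{z₀}) = 1`.
-/
import Mathlib
import Fermat.Agent.S40.J.MultRotation
import Fermat.Agent.N4F.Tors.KummerPlug

set_option autoImplicit false
set_option linter.unusedSectionVars false

noncomputable section

namespace Fermat.Agent.S40.J.KummerEll

open UpperHalfPlane MatrixGroups CongruenceSubgroup AlgebraicCurve IsDedekindDomain MulAction
open Fermat.Agent.M2 Fermat.Agent.M2.Dict Fermat.Agent.M2.OrdVal
open Fermat.Agent.S24 Fermat.Agent.S24.CountsC Fermat.Agent.S24.FieldIso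
  Fermat.Agent.S24.CountsFC
open Fermat.Agent.N4F.Tors Fermat.Agent.N4F.Tors.Kummer
open scoped Manifold

variable (N : ℕ) [NeZero N]

local notation "Kan" => WHField (Gamma0 N)

/-- half the order of the stabiliser of `z` in `Γ₀(N)` -/
def eAt (z : ℍ) : ℕ := Nat.card {γ : ↥(Gamma0 N) // (γ : SL(2, ℤ)) • z = z} / 2

/-- the order of `u` on `ℍ` at `z` is divisible by `e_z * n` when all place-orders are divisible
by `n` -/
theorem exists_vF_eq {n : ℕ} {u : Kan}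
    (hplace : ∀ P : Place ℂ (FC N), (n : ℤ) ∣ P.ord (fieldEquiv N u)) (hu0 : u ≠ 0) (z : ℍ) :
    ∃ k₀ : ℤ, vF (Gamma0 N) z u = WithZero.exp (-((eAt N z : ℤ) * ((n : ℤ) * k₀))) := by
  obtain ⟨P₀, hP₀⟩ := RamPoint.exists_prime_of_point N z
  obtain ⟨k₀, hk₀⟩ := hplace (mapPlace (fieldEquiv N)
    (Place.ofHeightOneSpectrum (K := ℂ) (F := Kan) P₀))
  rw [KummerPic.ord_mapPlace, ord_ofHeightOneSpectrum] at hk₀
  refine ⟨k₀, ?_⟩
  have ht : P₀.valuation Kan u ≠ 0 := (Valuation.ne_zero_iff _).mpr hu0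
  rw [hP₀ u]
  conv_lhs => rw [← WithZero.exp_log ht]
  rw [← WithZero.exp_nsmul, nsmul_eq_mul]
  congr 1
  have : WithZero.log (P₀.valuation Kan u) = -((n : ℤ) * k₀) := by linarith
  rw [this, eAt]
  ring

/-! ### The rotation number has order dividing `2 e_z` -/

theorem two_dvd_card_stab0 (z : ℍ) : 2 ∣ Nat.card (RamPoint.stab0 N z) := by
  have h : orderOf (⟨-1, RamPoint.neg_one_mem_stab0 N z⟩ : RamPoint.stab0 N z) = 2 := by
    rw [orderOf_eq_iff (by norm_num)]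
    refine ⟨?_, ?_⟩
    · ext : 2
      simp
    · intro m hm hm0
      have hm1 : m = 1 := by omega
      subst hm1
      intro h
      have h1 := congrArg (fun g : RamPoint.stab0 N z => (g.1 : SL(2, ℤ)) 0 0) h
      simp at h1
  have h2 := orderOf_dvd_natCard (⟨-1, RamPoint.neg_one_mem_stab0 N z⟩ : RamPoint.stab0 N z)
  rwa [h] at h2

theorem two_mul_eAt (z : ℍ) : 2 * eAt N z = Nat.card (RamPoint.stab0 N z) := by
  rw [eAt, ← RamPoint.card_stab0]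
  exact Nat.mul_div_cancel' (two_dvd_card_stab0 N z)

variable {N}

theorem denom_pow_two_mul_eAt (γ : ↥(Gamma0 N)) (z₀ : ℍ) (hz : (γ : SL(2, ℤ)) • z₀ = z₀) :
    denom ((γ : SL(2, ℤ)) : GL (Fin 2) ℝ) z₀ ^ (2 * eAt N z₀) = 1 := by
  rw [two_mul_eAt]
  set k := Nat.card (RamPoint.stab0 N z₀) with hk
  have h1 : (⟨(γ : SL(2, ℤ)), (RamPoint.mem_stab0 N z₀ _).mpr ⟨hz, γ.2⟩⟩ : RamPoint.stab0 N z₀) ^ k
      = 1 := pow_card_eq_one'
  have h2 : (γ : SL(2, ℤ)) ^ k = 1 := by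
    have := congrArg (fun g : RamPoint.stab0 N z₀ => (g : SL(2, ℤ))) h1
    simpa using this
  have h3 : (⟨(γ : SL(2, ℤ)), hz⟩ : stabilizer SL(2, ℤ) z₀) ^ k = 1 := by
    apply Subtype.ext
    simpa using h2
  have h4 : Stab.epsHom z₀ ⟨(γ : SL(2, ℤ)), hz⟩ ^ k = 1 := by
    rw [← map_pow, h3, map_one]
  have h5 := congrArg (fun x : ℂˣ => (x : ℂ)) h4
  simp only [Units.val_pow_eq_pow_val, Units.val_one] at h5
  have h6 : ((Stab.epsHom z₀ ⟨(γ : SL(2, ℤ)), hz⟩ : ℂˣ) : ℂ) =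
      denom ((γ : SL(2, ℤ)) : GL (Fin 2) ℝ) z₀ := by
    simp [Stab.epsHom, Stab.eps, denom]
  rw [← h6]
  exact h5

/-! ### The main lemma -/

variable {n : ℕ} [NeZero n]

/-- the order of the root `h` at `z₀` is divisible by `e_{z₀}` -/
theorem eAt_dvd_ordAt_root {u : WHField (Gamma0 N)} (hu : NDiv (Gamma0 N) n u)
    (hplace : ∀ P : Place ℂ (FC N), (n : ℤ) ∣ P.ord (fieldEquiv N u))
    {a b : WH (Gamma0 N)} {h : ℍ → ℂ} (D : IsRootDatum (Gamma0 N) n u a b h) (z₀ : ℍ) {m : ℕ}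
    (hm : ordAt z₀ h = m) : eAt N z₀ ∣ m := by
  have hn : n ≠ 0 := NeZero.ne n
  have ha0 : a ≠ 0 := D.a_ne_zero hu.1
  have hb0 : b ≠ 0 := D.hb
  obtain ⟨k₀, hk₀⟩ := exists_vF_eq N hplace hu.1 z₀
  -- `ord a = e n k₀ + ord b`
  have h1 : vF (Gamma0 N) z₀ u * ordVal (Gamma0 N) z₀ b = ordVal (Gamma0 N) z₀ a := by
    rw [← vF_algebraMap, ← vF_algebraMap, ← map_mul, D.hu]
  rw [hk₀, ordVal_apply_of_ne_zero (Gamma0 N) ha0, ordVal_apply_of_ne_zero (Gamma0 N) hb0,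
    ← WithZero.exp_add, WithZero.exp_inj] at h1
  -- `n m = ord a + (n-1) ord b`
  have hA0 : a * b ^ (n - 1) ≠ 0 := mul_ne_zero ha0 (pow_ne_zero _ hb0)
  have h2 : ordVal (Gamma0 N) z₀ (a * b ^ (n - 1)) =
      ordVal (Gamma0 N) z₀ a * ordVal (Gamma0 N) z₀ b ^ (n - 1) := by
    rw [map_mul, map_pow]
  rw [ordVal_apply_of_ne_zero (Gamma0 N) hA0, ordVal_apply_of_ne_zero (Gamma0 N) ha0,
    ordVal_apply_of_ne_zero (Gamma0 N) hb0, ← WithZero.exp_nsmul, ← WithZero.exp_add,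
    WithZero.exp_inj, nsmul_eq_mul] at h2
  have h3 : (fun z => h z ^ n) = ((a * b ^ (n - 1) : WH (Gamma0 N)) : ℍ → ℂ) := by
    funext z
    rw [D.hpow z]
    rfl
  have h4 : ordAt z₀ (h ^ n) = n • ordAt z₀ h := ordAt_pow D.hh z₀ n
  have h5 : (ordNat (Gamma0 N) z₀ (a * b ^ (n - 1)) : ℕ∞) = ((n * m : ℕ) : ℕ∞) := by
    rw [coe_ordNat (Gamma0 N) hA0, ← h3]
    have : (fun z => h z ^ n) = h ^ n := rfl
    rw [this, h4, hm]
    simp
  have h6 : ordNat (Gamma0 N) z₀ (a * b ^ (n - 1)) = n * m := by exact_mod_cast h5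
  rw [h6] at h2
  have hn1 : ((n - 1 : ℕ) : ℤ) = (n : ℤ) - 1 := by
    have : 1 ≤ n := Nat.one_le_iff_ne_zero.mpr hn
    push_cast [Nat.cast_sub this]
    ring
  rw [hn1] at h2
  push_cast at h2
  -- `m = e k₀ + ord b`
  have hnZ : (n : ℤ) ≠ 0 := by exact_mod_cast hn
  have h7 : (m : ℤ) = (eAt N z₀ : ℤ) * k₀ + ordNat (Gamma0 N) z₀ b := by
    apply mul_left_cancel₀ hnZ
    linarith
  -- `e ∣ ord b`
  have h8 : eAt N z₀ ∣ ordNat (Gamma0 N) z₀ b :=
    RamPoint.card_stabilizer_half_dvd_ordAt N (f := (b : ℍ → ℂ)) b.2.1 z₀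
      (coe_ordNat (Gamma0 N) hb0).symm
      (fun γ hγ _ w => WH.smul_apply b hγ w)
  have h9 : (eAt N z₀ : ℤ) ∣ (m : ℤ) := by
    rw [h7]
    exact dvd_add (dvd_mul_right _ _) (by exact_mod_cast h8)
  exact_mod_cast h9

/-- **The Kummer multiplier of an element with a fixed point is trivial.** -/
theorem kummerMult_eq_one_of_fixed {u : WHField (Gamma0 N)} (hu : NDiv (Gamma0 N) n u)
    (hplace : ∀ P : Place ℂ (FC N), (n : ℤ) ∣ P.ord (fieldEquiv N u))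
    (γ : ↥(Gamma0 N)) (z₀ : ℍ) (hz : (γ : SL(2, ℤ)) • z₀ = z₀) : kummerMult hu γ = 1 := by
  have D := hu.isRootDatum
  have hI := hu.isInvRoot
  have hc : ∀ z, hu.rootH ((γ : SL(2, ℤ)) • z) = kummerMult hu γ * hu.rootH z :=
    kummerMult_spec hu D γ
  have htop := ordAt_ne_top D.hh hI.ne_zero z₀
  obtain ⟨m, hm⟩ := ENat.ne_top_iff_exists.mp htop
  have key := MultRotation.mul_denom_pow_eq_one D.hh (γ : SL(2, ℤ)) hz hc hm.symm
  obtain ⟨t, ht⟩ := eAt_dvd_ordAt_root hu hplace D z₀ hm.symm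
  have h1 : denom ((γ : SL(2, ℤ)) : GL (Fin 2) ℝ) z₀ ^ (2 * m) = 1 := by
    rw [ht, ← mul_assoc, pow_mul, denom_pow_two_mul_eAt γ z₀ hz, one_pow]
  rwa [h1, mul_one] at key

end Fermat.Agent.S40.J.KummerEll
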