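/-
S40 / (ρ4), file 3a: A TWISTED-PERIODIC ROOT OF A PERIODIC FUNCTION WHOSE ORDER AT THE CUSP IS
DIVISIBLE BY `n` IS PERIODIC.

`H` holomorphic on `ℍ`, `H (z + w) = exp (2πi j / n) H z` with `j < n`, `H ^ n = F` with `F`
`w`-periodic, meromorphic at `i∞`, `ord_{q_w} F ∈ n ℤ`.  Then `j = 0`.
Proof: `G = H · q_{wn}^{n-j}` is `w`-periodic and meromorphic at `i∞`, and
`n · ord G = ord F + (n - j)`.
-/
import Mathlib
import Fermat.Agent.M2.CuspVal
import Fermat.Agent.N4F.Tors.EisCusp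

set_option autoImplicit false

noncomputable section

namespace Fermat.Agent.S40.J.TwistedPeriodic

open UpperHalfPlane MatrixGroups Filter Function Complex
open Fermat.Agent.M2 Fermat.Agent.M2.CuspVal
open scoped Manifold Topology Real

local notation "Δ" => ModularForm.discriminant
local notation "𝕢" => Periodic.qParam

/-- the restriction to `ℍ` of an entire function is holomorphic -/
lemma mdiff_of_differentiable {g : ℂ → ℂ} (hg : Differentiable ℂ g) :
    MDiff (fun z : ℍ => g (z : ℂ)) := by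
  rw [UpperHalfPlane.mdifferentiable_iff]
  refine hg.differentiableOn.congr fun z hz => ?_
  simp [Function.comp_apply, ofComplex_apply_of_im_pos hz]

/-- the function `q_h ^ m` on `ℍ` -/
def qPow (h : ℝ) (m : ℕ) : ℍ → ℂ := fun z => 𝕢 h (z : ℂ) ^ m

lemma mdiff_qPow (h : ℝ) (m : ℕ) : MDiff (qPow h m) :=
  mdiff_of_differentiable (g := fun z => 𝕢 h z ^ m) (Periodic.differentiable_qParam.pow m)

lemma qPow_ne_zero (h : ℝ) (m : ℕ) (z : ℍ) : qPow h m z ≠ 0 :=
  pow_ne_zero _ (Periodic.qParam_ne_zero _)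

lemma norm_qPow_le_one {h : ℝ} (hh : 0 < h) (m : ℕ) (z : ℍ) : ‖qPow h m z‖ ≤ 1 := by
  rw [qPow, norm_pow]
  exact pow_le_one₀ (norm_nonneg _) (Periodic.norm_qParam_lt_one hh z.im_pos).le

lemma isBoundedAtImInfty_qPow {h : ℝ} (hh : 0 < h) (m : ℕ) : IsBoundedAtImInfty (qPow h m) := by
  rw [isBoundedAtImInfty_iff]
  exact ⟨1, 0, fun z _ => norm_qPow_le_one hh m z⟩

/-- translation by `a`: `q_h (a + z) = exp (2πi a / h) q_h z` -/
lemma qParam_vadd (h : ℝ) (a : ℝ) (z : ℍ) :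
    𝕢 h ((a +ᵥ z : ℍ) : ℂ) = Complex.exp (2 * π * Complex.I * a / h) * 𝕢 h (z : ℂ) := by
  simp only [Periodic.qParam, coe_vadd]
  rw [← Complex.exp_add]
  congr 1
  ring

lemma qPow_vadd_self {w : ℕ} (hw : 0 < w) (m : ℕ) (z : ℍ) :
    qPow (w : ℝ) m (((w : ℕ) : ℝ) +ᵥ z) = qPow (w : ℝ) m z := by
  simp only [qPow]
  rw [qParam_vadd]
  have hw' : ((w : ℝ) : ℂ) ≠ 0 := by exact_mod_cast hw.ne'
  have : 2 * (π : ℂ) * Complex.I * ((w : ℝ) : ℂ) / ((w : ℝ) : ℂ) = 2 * π * Complex.I := by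
    field_simp
  rw [this, Complex.exp_two_pi_mul_I, one_mul]

lemma isPerMero_qPow {w : ℕ} (hw : 0 < w) (m : ℕ) : IsPerMero w (qPow (w : ℝ) m) :=
  IsPerMero.of_bounded (mdiff_qPow _ m) (periodic_of_vadd (qPow_vadd_self hw m))
    (isBoundedAtImInfty_qPow (by exact_mod_cast hw) m)

lemma cuspOrd_qPow {w : ℕ} (hw : 0 < w) (m : ℕ) :
    cuspOrd w (qPow (w : ℝ) m) = ((m : ℤ) : WithTop ℤ) := by
  refine cuspOrd_eq_of_tendsto hw (isPerMero_qPow hw m) (m : ℤ) one_ne_zero ?_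
  refine tendsto_const_nhds.congr fun z => ?_
  have hq : 𝕢 (w : ℝ) (z : ℂ) ≠ 0 := Periodic.qParam_ne_zero _
  simp only [qPow]
  rw [zpow_neg, zpow_natCast, mul_inv_cancel₀ (pow_ne_zero _ hq)]

/-- **Main lemma.** -/
theorem eq_zero_of_twisted {w n j : ℕ} (hw : 0 < w) (hn : n ≠ 0) (hj : j < n)
    {H F : ℍ → ℂ} (hH : MDiff H) (hH0 : H ≠ 0)
    (hper : ∀ z : ℍ, H (((w : ℕ) : ℝ) +ᵥ z) =
      Complex.exp (2 * π * Complex.I * (j : ℂ) / (n : ℂ)) * H z)
    (hF : IsPerMero w F) (hpow : ∀ z, H z ^ n = F z) {k₁ : ℤ}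
    (hord : cuspOrd w F = (((n : ℤ) * k₁ : ℤ) : WithTop ℤ)) : j = 0 := by
  have hnpos : 0 < n := Nat.pos_of_ne_zero hn
  have hnC : (n : ℂ) ≠ 0 := by exact_mod_cast hn
  have hwC : (w : ℂ) ≠ 0 := by exact_mod_cast hw.ne'
  set E : ℍ → ℂ := qPow (((w * n : ℕ) : ℝ)) (n - j) with hE
  set G : ℍ → ℂ := H * E with hG
  -- translation behaviour of `E`
  have hE_vadd : ∀ z : ℍ, E (((w : ℕ) : ℝ) +ᵥ z) =
      Complex.exp (2 * π * Complex.I * ((n - j : ℕ) : ℂ) / (n : ℂ)) * E z := by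
    intro z
    simp only [hE, qPow]
    rw [qParam_vadd, mul_pow, ← Complex.exp_nat_mul]
    congr 2
    push_cast
    field_simp
  have hG_vadd : ∀ z : ℍ, G (((w : ℕ) : ℝ) +ᵥ z) = G z := by
    intro z
    simp only [hG, Pi.mul_apply]
    rw [hper z, hE_vadd z]
    have : Complex.exp (2 * π * Complex.I * (j : ℂ) / (n : ℂ)) *
        Complex.exp (2 * π * Complex.I * ((n - j : ℕ) : ℂ) / (n : ℂ)) = 1 := by
      rw [← Complex.exp_add]
      have e : 2 * (π : ℂ) * Complex.I * (j : ℂ) / (n : ℂ) +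
          2 * π * Complex.I * ((n - j : ℕ) : ℂ) / (n : ℂ) = 2 * π * Complex.I := by
        rw [Nat.cast_sub hj.le]
        field_simp
        ring
      rw [e, Complex.exp_two_pi_mul_I]
    calc Complex.exp (2 * π * Complex.I * (j : ℂ) / (n : ℂ)) * H z *
          (Complex.exp (2 * π * Complex.I * ((n - j : ℕ) : ℂ) / (n : ℂ)) * E z)
        = (Complex.exp (2 * π * Complex.I * (j : ℂ) / (n : ℂ)) *
            Complex.exp (2 * π * Complex.I * ((n - j : ℕ) : ℂ) / (n : ℂ))) * (H z * E z) := by ring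
      _ = H z * E z := by rw [this, one_mul]
  -- the `n`-th power of `E`
  have hEn : ∀ z : ℍ, E z ^ n = qPow (w : ℝ) (n - j) z := by
    intro z
    simp only [hE, qPow]
    rw [← pow_mul, mul_comm (n - j) n, pow_mul, qParam_pow_level hw hnpos]
  have hGn : (fun z : ℍ => G z ^ n) = F * qPow (w : ℝ) (n - j) := by
    funext z
    simp only [hG, Pi.mul_apply]
    rw [mul_pow, hpow z, hEn z]
  have hG_mdiff : MDiff G := hH.mul (mdiff_qPow _ _)
  -- meromorphy at the cusp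
  obtain ⟨m₀, hm₀⟩ := hF.mero
  have hG_mero : IsBoundedAtImInfty (fun z : ℍ => G z * Δ z ^ m₀) := by
    apply Fermat.Agent.N4F.Tors.Kummer.isBoundedAtImInfty_of_pow hn
    have e : (fun z : ℍ => (G z * Δ z ^ m₀) ^ n) =
        (fun z : ℍ => F z * Δ z ^ m₀) * qPow (w : ℝ) (n - j) *
          (fun z : ℍ => Δ z ^ (m₀ * (n - 1))) := by
      funext z
      have h1 := congrFun hGn z
      simp only [Pi.mul_apply] at h1 ⊢
      have h2 : m₀ * n = m₀ + m₀ * (n - 1) := by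
        obtain ⟨n', rfl⟩ : ∃ n', n = n' + 1 := ⟨n - 1, by omega⟩
        simp only [Nat.add_sub_cancel]
        ring
      rw [mul_pow, h1, ← pow_mul, h2, pow_add]
      ring
    rw [e]
    exact (hm₀.mul (isBoundedAtImInfty_qPow (by exact_mod_cast hw) _)).mul
      (isBoundedAtImInfty_discriminant_pow _)
  have hGper : IsPerMero w G := ⟨hG_mdiff, periodic_of_vadd hG_vadd, ⟨m₀, hG_mero⟩⟩
  -- `G ≠ 0`
  have hG0 : G ≠ 0 := by
    intro h0
    apply hH0
    funext z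
    have := congrFun h0 z
    simp only [hG, Pi.mul_apply, Pi.zero_apply] at this
    rcases mul_eq_zero.mp this with h | h
    · exact h
    · exact absurd h (qPow_ne_zero _ _ z)
  -- orders
  have h1 := (Fermat.Agent.N4F.Tors.EisCusp.isPerMero_pow_and_cuspOrd_pow hw hGper n).2
  have h2 := cuspOrd_mul hw hF (isPerMero_qPow hw (n - j))
  rw [hGn, h2, hord, cuspOrd_qPow hw] at h1
  cases hc : cuspOrd w G with
  | top => exact absurd ((cuspOrd_eq_top_iff hw hGper).mp hc) hG0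
  | coe g₀ =>
    rw [hc, ← WithTop.coe_add, ← WithTop.coe_nsmul, WithTop.coe_inj, nsmul_eq_mul] at h1
    have h3 : (n : ℤ) ∣ (j : ℤ) := by
      refine ⟨k₁ + 1 - g₀, ?_⟩
      have : ((n - j : ℕ) : ℤ) = (n : ℤ) - j := by
        rw [Nat.cast_sub hj.le]
      rw [this] at h1
      linarith
    have h4 : n ∣ j := by exact_mod_cast h3
    exact Nat.eq_zero_of_dvd_of_lt h4 hj

end Fermat.Agent.S40.J.TwistedPeriodic
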