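/-
S40 / (ρ4), file 3: THE KUMMER CHARACTER KILLS THE PARABOLIC ELEMENTS.

If ALL the orders of `u` at the places of `FC N` are divisible by `n`, the Kummer character of `u`
kills `δ T^w δ⁻¹` (`w` the width of the cusp `δ • i∞`): with `h` an `n`-th root of `u` on `ℍ`,
`H = h ∘ δ` satisfies `H (z + w) = ζ^j H z`; the function `G = H · q_{nw}^{n-j}` is `w`-periodic and
meromorphic at `i∞`, and `n · ord_{q_w} G = ord_{q_w} (H^n) + (n - j)` with `n ∣ ord_{q_w} (H^n)`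
by the exact ramification at the cusps (`RamCusp`), so `n ∣ j`, i.e. `j = 0`.
-/
import Mathlib
import Fermat.Agent.N4F.Tors.KummerPlug
import Fermat.Agent.S40.J.TwistedPeriodic
import Fermat.Agent.M2.ES.Parabolic

set_option autoImplicit false
set_option linter.unusedSectionVars false

noncomputable section

namespace Fermat.Agent.S40.J.KummerPar

open UpperHalfPlane MatrixGroups CongruenceSubgroup AlgebraicCurve IsDedekindDomain Filter Function
open Fermat.Agent.M2 Fermat.Agent.M2.Dict Fermat.Agent.M2.OrdVal Fermat.Agent.M2.CuspVal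
  Fermat.Agent.M2.CuspValK
open Fermat.Agent.S24 Fermat.Agent.S24.CountsC Fermat.Agent.S24.FieldIso
  Fermat.Agent.S24.CountsFC
open Fermat.Agent.N4F.Tors Fermat.Agent.N4F.Tors.Kummer Fermat.Agent.N4F.Tors.RamCusp
open scoped Manifold

local notation "Δ" => ModularForm.discriminant
local notation "𝕢" => Periodic.qParam

variable (N : ℕ) [NeZero N]

/-! ### Orders at the primes at infinity -/

/-- the valuation of `u` at a prime at infinity is an `n`-th power when all place-orders are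
divisible by `n` -/
theorem exists_valuation_inf_eq {n : ℕ} {u : WHField (Gamma0 N)}
    (hplace : ∀ P : Place ℂ (FC N), (n : ℤ) ∣ P.ord (fieldEquiv N u)) (hu0 : u ≠ 0)
    (Q : HeightOneSpectrum (integralClosure (DW.Oinf ℂ) (WHField (Gamma0 N)))) :
    ∃ k₀ : ℤ, Q.valuation (WHField (Gamma0 N)) u = WithZero.exp (-((n : ℤ) * k₀)) := by
  obtain ⟨k₀, hk₀⟩ := hplace (mapPlace (fieldEquiv N)
    (Place.ofHeightOneSpectrum (K := ℂ) (F := WHField (Gamma0 N)) Q))
  rw [KummerPic.ord_mapPlace, ord_ofHeightOneSpectrum] at hk₀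
  refine ⟨k₀, ?_⟩
  have ht : Q.valuation (WHField (Gamma0 N)) u ≠ 0 := (Valuation.ne_zero_iff _).mpr hu0
  conv_lhs => rw [← WithZero.exp_log ht]
  congr 1
  linarith

variable {N}

theorem smul_vadd_eq (δ : SL(2, ℤ)) (w : ℕ) (z : ℍ) :
    δ • (((w : ℕ) : ℝ) +ᵥ z) = (δ * ModularGroup.T ^ w * δ⁻¹) • (δ • z) := by
  rw [← mul_smul, inv_mul_cancel_right, mul_smul]
  congr 1
  have := T_zpow_smul (w : ℤ) z
  rw [zpow_natCast] at this
  rw [this]
  simp

/-- `a ∘ δ` is periodic of period the width, and meromorphic at `i∞`, for `a ∈ WH Γ₀(N)`. -/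
theorem isPerMero_comp_smul (a : WH (Gamma0 N)) (δ : SL(2, ℤ)) :
    IsPerMero (cuspWidth N δ) (fun z : ℍ => (a : ℍ → ℂ) (δ • z)) := by
  have hN : IsPerMero N (fun z : ℍ => (a : ℍ → ℂ) (δ • z)) :=
    IsPerMero.of_isWH_smul (Γ := Gamma N) (T_pow_mem_Gamma N)
      (WH_le (Gamma_le_Gamma0 N) a.2) δ
  refine ⟨hN.mdiff, ?_, hN.mero⟩
  apply periodic_of_vadd
  intro z
  have hmem := conj_T_pow_cuspWidth_mem N δ
  have e := smul_vadd_eq δ (cuspWidth N δ) z
  show (a : ℍ → ℂ) (δ • (((cuspWidth N δ : ℕ) : ℝ) +ᵥ z)) = (a : ℍ → ℂ) (δ • z)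
  rw [e]
  exact WH.smul_apply a hmem (δ • z)

/-- **The order at the cusp of `a b^{n-1}` in the parameter `q_w` is divisible by `n`.** -/
theorem exists_cuspOrd_root_eq {n : ℕ} [NeZero n] {u : WHField (Gamma0 N)} (hu0 : u ≠ 0)
    (hplace : ∀ P : Place ℂ (FC N), (n : ℤ) ∣ P.ord (fieldEquiv N u))
    {a b : WH (Gamma0 N)} {h : ℍ → ℂ} (D : IsRootDatum (Gamma0 N) n u a b h) (δ : SL(2, ℤ)) :
    ∃ k₁ : ℤ, cuspOrd (cuspWidth N δ)
      (fun z : ℍ => ((a * b ^ (n - 1) : WH (Gamma0 N)) : ℍ → ℂ) (δ • z)) =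
        ((n * k₁ : ℤ) : WithTop ℤ) := by
  have hn : n ≠ 0 := NeZero.ne n
  have hw : 0 < cuspWidth N δ := cuspWidth_pos N δ
  have hκ : 0 < N / cuspWidth N δ :=
    Nat.div_pos (Nat.le_of_dvd (NeZero.pos N) (cuspWidth_dvd N δ)) hw
  have hwκ : cuspWidth N δ * (N / cuspWidth N δ) = N := Nat.mul_div_cancel' (cuspWidth_dvd N δ)
  have ha0 : a ≠ 0 := D.a_ne_zero hu0
  have hb0 : b ≠ 0 := D.hb
  have hA0 : a * b ^ (n - 1) ≠ 0 := mul_ne_zero ha0 (pow_ne_zero _ hb0)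
  obtain ⟨Q, hQ⟩ := exists_prime_of_cusp N δ
  obtain ⟨k₀, hk₀⟩ := exists_valuation_inf_eq N hplace hu0 Q
  set vQ := Q.valuation (WHField (Gamma0 N)) with hvQ
  have hb' : algebraMap (WH (Gamma0 N)) (WHField (Gamma0 N)) b ≠ 0 := fun h0 =>
    hb0 (algebraMap_WH_injective (by rw [h0, map_zero]))
  have hvb : vQ (algebraMap (WH (Gamma0 N)) (WHField (Gamma0 N)) b) ≠ 0 :=
    (Valuation.ne_zero_iff _).mpr hb'
  set β : ℤ := -(WithZero.log (vQ (algebraMap (WH (Gamma0 N)) (WHField (Gamma0 N)) b))) with hβ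
  have hvb' : vQ (algebraMap (WH (Gamma0 N)) (WHField (Gamma0 N)) b) = WithZero.exp (-β) := by
    rw [hβ, neg_neg, WithZero.exp_log hvb]
  have hva : vQ (algebraMap (WH (Gamma0 N)) (WHField (Gamma0 N)) a) =
      WithZero.exp (-((n : ℤ) * k₀)) * WithZero.exp (-β) := by
    rw [← D.hu, map_mul, hk₀, hvb']
  have hn1 : (n - 1) + 1 = n := Nat.sub_add_cancel (Nat.one_le_iff_ne_zero.mpr hn)
  have hvA : vQ (algebraMap (WH (Gamma0 N)) (WHField (Gamma0 N)) (a * b ^ (n - 1))) =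
      WithZero.exp (-((n : ℤ) * (k₀ + β))) := by
    rw [map_mul, map_mul, map_pow, map_pow, hva, hvb', mul_assoc, ← pow_succ', hn1,
      ← WithZero.exp_nsmul, ← WithZero.exp_add]
    congr 1
    rw [nsmul_eq_mul]
    ring
  have h1 := hQ (algebraMap (WH (Gamma0 N)) (WHField (Gamma0 N)) (a * b ^ (n - 1)))
  rw [cuspValK_algebraMap, hvA, ← WithZero.exp_nsmul, nsmul_eq_mul] at h1
  have h2 := cuspOrd_level hw hκ (isPerMero_comp_smul (a * b ^ (n - 1)) δ)
  rw [hwκ] at h2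
  rw [h2] at h1
  cases hc : cuspOrd (cuspWidth N δ)
      (fun z : ℍ => ((a * b ^ (n - 1) : WH (Gamma0 N)) : ℍ → ℂ) (δ • z)) with
  | top =>
    exfalso
    rw [hc] at h1
    have hκW : (((N / cuspWidth N δ : ℕ) : ℤ) : WithTop ℤ) ≠ 0 := by
      have : ((N / cuspWidth N δ : ℕ) : ℤ) ≠ 0 := by exact_mod_cast hκ.ne'
      exact_mod_cast this
    rw [WithTop.top_mul hκW, toVal_top] at h1
    exact WithZero.exp_ne_zero h1.symm
  | coe c =>
    rw [hc] at h1
    refine ⟨k₀ + β, ?_⟩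
    have h3 : ((c : WithTop ℤ) * ((N / cuspWidth N δ : ℕ) : ℤ)) =
        ((c * ((N / cuspWidth N δ : ℕ) : ℤ) : ℤ) : WithTop ℤ) := by
      push_cast
      rfl
    rw [h3, toVal_coe, WithZero.exp_inj] at h1
    have hκZ : ((N / cuspWidth N δ : ℕ) : ℤ) ≠ 0 := by exact_mod_cast hκ.ne'
    have h4 : c = (n : ℤ) * (k₀ + β) := by
      apply mul_right_cancel₀ hκZ
      linarith
    rw [h4]

/-! ### The generator of the stabiliser of a cusp -/

/-- the element `δ T^w δ⁻¹` of `Γ₀(N)`, `w` the width of the cusp `δ • i∞` -/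
def cuspGen (N : ℕ) (δ : SL(2, ℤ)) : ↥(Gamma0 N) :=
  ⟨δ * ModularGroup.T ^ (cuspWidth N δ) * δ⁻¹, conj_T_pow_cuspWidth_mem N δ⟩

/-- **The Kummer character kills the generator of the stabiliser of every cusp.** -/
theorem kummerChar_cuspGen {n : ℕ} [NeZero n] {u : WHField (Gamma0 N)}
    (hu : NDiv (Gamma0 N) n u)
    (hplace : ∀ P : Place ℂ (FC N), (n : ℤ) ∣ P.ord (fieldEquiv N u)) (δ : SL(2, ℤ)) :
    kummerChar hu (Additive.ofMul (cuspGen N δ)) = 0 := by
  have hn : n ≠ 0 := NeZero.ne n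
  have hw : 0 < cuspWidth N δ := cuspWidth_pos N δ
  have D := hu.isRootDatum
  have hI := hu.isInvRoot
  set j := (kummerChar hu (Additive.ofMul (cuspGen N δ))).val with hj
  have hjn : j < n := ZMod.val_lt _
  have hspec := kummerChar_spec_exp hu D (cuspGen N δ)
  obtain ⟨k₁, hk₁⟩ := exists_cuspOrd_root_eq hu.1 hplace D δ
  have hH : MDiff (fun z : ℍ => hu.rootH (δ • z)) := mdiff_comp_smul D.hh δ
  have hH0 : (fun z : ℍ => hu.rootH (δ • z)) ≠ 0 := by
    intro h0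
    apply hI.ne_zero
    funext z
    have := congrFun h0 (δ⁻¹ • z)
    simpa using this
  have key := TwistedPeriodic.eq_zero_of_twisted (w := cuspWidth N δ) (n := n) (j := j) hw hn hjn
    (H := fun z : ℍ => hu.rootH (δ • z))
    (F := fun z : ℍ => ((hu.rootA * hu.rootB ^ (n - 1) : WH (Gamma0 N)) : ℍ → ℂ) (δ • z))
    hH hH0 ?_ (isPerMero_comp_smul _ δ) ?_ hk₁
  · exact (ZMod.val_eq_zero _).mp key
  · intro z
    show hu.rootH (δ • (((cuspWidth N δ : ℕ) : ℝ) +ᵥ z)) = _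
    rw [smul_vadd_eq]
    exact hspec (δ • z)
  · intro z
    show hu.rootH (δ • z) ^ n = _
    rw [D.hpow (δ • z)]
    rfl

/-! ### All parabolic elements -/

/-- `-1` as an element of `Γ₀(N)` -/
def negOne (N : ℕ) : ↥(Gamma0 N) := ⟨-1, by rw [Gamma0_mem]; simp⟩

/-- the Kummer character kills `-1` (no hypothesis at the places needed) -/
theorem kummerChar_negOne {n : ℕ} [NeZero n] {u : WHField (Gamma0 N)}
    (hu : NDiv (Gamma0 N) n u) : kummerChar hu (Additive.ofMul (negOne N)) = 0 := by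
  have D := hu.isRootDatum
  obtain ⟨z, hz⟩ := hu.isInvRoot.exists_ne_zero
  refine kummerChar_eq_of_spec hu D (negOne N) hz ?_
  rw [AddChar.map_zero_eq_one, one_mul]
  congr 1
  show (-1 : SL(2, ℤ)) • z = z
  rw [ModularGroup.SL_neg_smul, one_smul]

/-- **The Kummer character kills every element of `Γ₀(N)` of trace `± 2`.** -/
theorem kummerChar_of_trace_sq {n : ℕ} [NeZero n] {u : WHField (Gamma0 N)}
    (hu : NDiv (Gamma0 N) n u)
    (hplace : ∀ P : Place ℂ (FC N), (n : ℤ) ∣ P.ord (fieldEquiv N u)) (γ : ↥(Gamma0 N))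
    (hγ : ((γ : SL(2, ℤ)) : Matrix (Fin 2) (Fin 2) ℤ).trace ^ 2 = 4) :
    kummerChar hu (Additive.ofMul γ) = 0 := by
  -- the case of a conjugate of a power of `T`
  have key : ∀ (δ : SL(2, ℤ)) (m : ℤ) (g : ↥(Gamma0 N)),
      (g : SL(2, ℤ)) = δ * ModularGroup.T ^ m * δ⁻¹ → kummerChar hu (Additive.ofMul g) = 0 := by
    intro δ m g hg
    have hmem : δ * ModularGroup.T ^ m * δ⁻¹ ∈ Gamma0 N := hg ▸ g.2
    obtain ⟨t, rfl⟩ := (conj_T_zpow_mem_iff N δ m).mp hmem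
    have hgt : g = cuspGen N δ ^ t := by
      apply Subtype.ext
      rw [hg, Subgroup.coe_zpow]
      show _ = (δ * ModularGroup.T ^ (cuspWidth N δ) * δ⁻¹) ^ t
      rw [conj_zpow, ← zpow_natCast, ← zpow_mul]
    rw [hgt, ofMul_zpow, map_zsmul, kummerChar_cuspGen hu hplace δ, smul_zero]
  obtain ⟨δ, m, h | h⟩ := Fermat.Agent.M2.ES.Parabolic.exists_conj_T_zpow (γ : SL(2, ℤ)) hγ
  · exact key δ m γ h
  · have h1 : γ = negOne N * (negOne N * γ) := by
      apply Subtype.ext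
      show (γ : SL(2, ℤ)) = -1 * (-1 * (γ : SL(2, ℤ)))
      simp
    have h2 : ((negOne N * γ : ↥(Gamma0 N)) : SL(2, ℤ)) = δ * ModularGroup.T ^ m * δ⁻¹ := by
      show -1 * (γ : SL(2, ℤ)) = _
      rw [h]
      simp
    rw [h1, ofMul_mul, map_add, kummerChar_negOne hu, key δ m _ h2, add_zero]

end Fermat.Agent.S40.J.KummerPar
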