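/-
S40 / (ρ4), file 4: THE KUMMER MAPS OF `J₀(N)` TAKE VALUES IN THE PARABOLIC-ELLIPTIC HOMOMORPHISMS.

* `kummerChar_mem_parHomAdd` : if ALL orders of `u` at the places of `FC N` are divisible by `n`, the
  Kummer character of `u` kills the parabolic and the finite-order elements of `Γ₀(N)`.
* `kappa N n : Jtors N n →+ (Additive Γ₀(N) →+ ZMod n)` : the Kummer maps of record
  (`kummerCAll` composed with base change), with (K1)–(K4) of `KummerBar.KummerPackageAll` and
  the new clause (K5) `kappa N n x ∈ parHomAdd N (ZMod n)`.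
* `kappaEquiv` : `Jtors N n ≃+ parHomAdd N (ZMod n)`, Hecke-equivariant.
-/
import Mathlib
import Fermat.Agent.S40.J.KummerEll
import Fermat.Agent.S40.J.KummerPar
import Fermat.Agent.S16.Lower.PsiPackage

set_option autoImplicit false
set_option linter.unusedSectionVars false
set_option linter.style.haveILetI false

noncomputable section

namespace Fermat.Agent.S40.J.KummerParEll

open UpperHalfPlane MatrixGroups CongruenceSubgroup AlgebraicCurve ModularCurve
open Fermat.Agent.M2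
open Fermat.Agent.S24 Fermat.Agent.S24.FieldIso
open Fermat.Agent.N4F.Res Fermat.Agent.N4F.Tors Fermat.Agent.N4F.Tors.Kummer
  Fermat.Agent.N4F.Tors.HeckeHom Fermat.Agent.N4F.Tors.KummerBar
  Fermat.Agent.N4F.Tors.KummerFinal Fermat.Agent.N4F.Tors.KummerPic
  Fermat.Agent.N4F.Tors.KummerPlug Fermat.Agent.N4F.Tors.Descent
  Fermat.Agent.N4F.Tors.BaseChange Fermat.Agent.N4F.Tors.HeckeDiv
  Fermat.Agent.N4F.Tors.Outputs

variable {N : ℕ} [NeZero N]

/-- **(A), core.** -/
theorem kummerChar_mem_parHomAdd {n : ℕ} [NeZero n] {u : WHField (Gamma0 N)}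
    (hu : NDiv (Gamma0 N) n u)
    (hplace : ∀ P : Place ℂ (FC N), (n : ℤ) ∣ P.ord (fieldEquiv N u)) :
    kummerChar hu ∈ parHomAdd N (ZMod n) := by
  rw [mem_parHomAdd]
  intro g hg
  have hpar : ((g : SL(2, ℤ)) : Matrix (Fin 2) (Fin 2) ℤ).trace ^ 2 = 4 →
      kummerChar hu (Additive.ofMul g) = 0 :=
    KummerPar.kummerChar_of_trace_sq hu hplace g
  rcases hg with h | h
  · exact hpar h
  · by_cases h4 : ((g : SL(2, ℤ)) : Matrix (Fin 2) (Fin 2) ℤ).trace ^ 2 = 4
    · exact hpar h4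
    · have habs := Fermat.Agent.S16.Lower.PsiPackage.abs_trace_le_two_of_isOfFinOrder
        (g : SL(2, ℤ)) h
      have hle : ((g : SL(2, ℤ)) : Matrix (Fin 2) (Fin 2) ℤ).trace ^ 2 ≤ 4 := by
        have := abs_le.mp habs
        nlinarith [this.1, this.2]
      have hlt := lt_of_le_of_ne hle h4
      obtain ⟨z₀, hz₀⟩ := MultRotation.exists_fixed_of_trace_sq_lt (g : SL(2, ℤ)) hlt
      have hm := KummerEll.kummerMult_eq_one_of_fixed hu hplace g z₀ hz₀
      apply ZMod.injective_stdAddChar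
      rw [stdAddChar_kummerChar, hm, AddChar.map_zero_eq_one]

/-! ### The complex Kummer maps -/

variable (N)

/-- **(C5)** the complex Kummer maps take values in the parabolic-elliptic homomorphisms. -/
theorem kummerCAll_mem_parHomAdd (n : ℕ) (hn : 0 < n) (x : Pic0.torsion ℂ (FC N) n) :
    kummerCAll N n x ∈ parHomAdd N (ZMod n) := by
  haveI : NeZero n := ⟨hn.ne'⟩
  obtain ⟨D, g, hg, hxD, hD⟩ := exists_generator x.2
  obtain ⟨hu, hκ⟩ := (kummerPicSpec N).apply_eq x D g hg hxD hD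
  rw [hκ]
  refine kummerChar_mem_parHomAdd hu fun P => ?_
  rw [(fieldEquiv N).apply_symm_apply g, ← hD P]
  exact dvd_mul_right _ _

/-! ### The Kummer maps of `J₀(N)(Q̄)` of record -/

/-- The Kummer map of `J₀(N)(Q̄)[n]`: the complex Kummer map composed with base change. -/
def kappa (n : ℕ) : Jtors N n →+ (Additive ↥(Gamma0 N) →+ ZMod n) :=
  (kummerCAll N n).comp (bcTors N n)

theorem kappa_apply (n : ℕ) (x : Jtors N n) : kappa N n x = kummerCAll N n (bcTors N n x) := rfl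

/-- (K1) -/
theorem kappa_injective (n : ℕ) (hn : 0 < n) : Function.Injective (kappa N n) :=
  (kummerCAll_injective N n hn).comp (bcTors_injective N (CoeffDescent.coeffDescent N) n)

/-- (K5), the new clause -/
theorem kappa_mem_parHomAdd (n : ℕ) (hn : 0 < n) (x : Jtors N n) :
    kappa N n x ∈ parHomAdd N (ZMod n) :=
  kummerCAll_mem_parHomAdd N n hn _

/-- (K2) -/
theorem kappa_surjective (n : ℕ) (hn : 0 < n) (ψ : Additive ↥(Gamma0 N) →+ ZMod n)
    (hψ : ψ ∈ parHomAdd N (ZMod n)) : ∃ x, kappa N n x = ψ := by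
  have hfin : Finite (Pic0.torsion ℂ (FC N) n) := (complexKummer N).finite hn
  obtain ⟨y, hy⟩ := surj_of (kummerPicSpec N) n hn ψ hψ
  obtain ⟨x, rfl⟩ := bcTors_surjective N (CoeffDescent.coeffDescent N) hfin y
  exact ⟨x, hy⟩

/-- (K3) -/
theorem kappa_hecke (n : ℕ) (hn : 0 < n) (ℓ : Nat.Primes) (hℓN : ¬ (ℓ : ℕ) ∣ N)
    (x : Jtors N n) :
    kappa N n (heckeTorsAdd N n ℓ x) = heckeAddP N ℓ hℓN (kappa N n x) :=
  hecke_of (kummerPicSpec N) (heckeCore N) n hn ℓ hℓN x

/-- (K4) -/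
theorem kappa_compat (n n' : ℕ) (h : n ∣ n') (hn' : 0 < n') (x : Jtors N n')
    (hx : (n' / n) • (x : JZero N) ∈ Jtors N n) :
    kappa N n ⟨(n' / n) • (x : JZero N), hx⟩ =
      (ZMod.castHom h (ZMod n)).toAddMonoidHom.comp (kappa N n' x) := by
  have hx' : (n' / n) • ((bcTors N n' x : Pic0.torsion ℂ (FC N) n') : Pic0 ℂ (FC N)) ∈
      Pic0.torsion ℂ (FC N) n := by
    rw [coe_bcTors, ← map_nsmul]
    exact bcPicC_mem_torsion N hx
  have h1 : bcTors N n ⟨(n' / n) • (x : JZero N), hx⟩ =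
      ⟨(n' / n) • ((bcTors N n' x : Pic0.torsion ℂ (FC N) n') : Pic0 ℂ (FC N)), hx'⟩ := by
    apply Subtype.ext
    rw [coe_bcTors]
    show bcPicC N ((n' / n) • (x : JZero N)) = (n' / n) • bcPicC N (x : JZero N)
    rw [map_nsmul]
  show kummerCAll N n (bcTors N n ⟨(n' / n) • (x : JZero N), hx⟩) = _
  rw [h1, compat_of (kummerPicSpec N) n n' h hn' (bcTors N n' x) hx']
  rfl

/-- **The strengthened Kummer package**: (K1)–(K4) of `KummerBar.KummerPackageAll N` together with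
(K5) "the Kummer maps take values in the parabolic-elliptic homomorphisms". -/
def KummerPackageAllPar : Prop :=
  ∃ κ : ∀ n : ℕ, Jtors N n →+ (Additive ↥(Gamma0 N) →+ ZMod n),
    (∀ n : ℕ, 0 < n → Function.Injective (κ n)) ∧
    (∀ n : ℕ, 0 < n → ∀ ψ : Additive ↥(Gamma0 N) →+ ZMod n, ψ ∈ parHomAdd N (ZMod n) →
      ∃ x, κ n x = ψ) ∧
    (∀ n : ℕ, 0 < n → ∀ (ℓ : Nat.Primes) (hℓN : ¬ (ℓ : ℕ) ∣ N) (x : Jtors N n),
      κ n (heckeTorsAdd N n ℓ x) = heckeAddP N ℓ hℓN (κ n x)) ∧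
    (∀ (n n' : ℕ) (h : n ∣ n'), 0 < n' → ∀ (x : Jtors N n')
      (hx : (n' / n) • (x : JZero N) ∈ Jtors N n),
      κ n ⟨(n' / n) • (x : JZero N), hx⟩ =
        (ZMod.castHom h (ZMod n)).toAddMonoidHom.comp (κ n' x)) ∧
    (∀ n : ℕ, 0 < n → ∀ x : Jtors N n, κ n x ∈ parHomAdd N (ZMod n))

/-- ★ **The strengthened Kummer package holds unconditionally.** -/
theorem kummerPackageAllPar : KummerPackageAllPar N :=
  ⟨kappa N, kappa_injective N, kappa_surjective N, kappa_hecke N, kappa_compat N,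
    kappa_mem_parHomAdd N⟩

/-- the old package, for the same maps -/
theorem kummerPackageAll_kappa : KummerPackageAll N :=
  ⟨kappa N, kappa_injective N, kappa_surjective N, kappa_hecke N, kappa_compat N⟩

end Fermat.Agent.S40.J.KummerParEll
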