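/-
S40 / (ρ4), file 5: HECKE RELATIONS ON CUSP FORMS HOLD ON THE TORSION OF `J₀(N)`.

* `kappaEquiv` : `Jtors N n ≃+ parHomAdd N (ZMod n)` (from (K1), (K2), (K5));
* `exists_lift_kappa` : every Kummer class is the reduction of an integral parabolic-elliptic
  homomorphism (`S16/LiftGamma0`: `H₁` is torsion-free);
* `TorsRel n A B` : the operator `A` on `Λ = parHomAdd N ℤ` and the endomorphism `B` of `Jtors N n` are
  intertwined by the Kummer map; closed under `0, 1, +, ∘, ℤ`, contains `(T_ℓ, T_ℓ)`;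
* **`rho4`** : if `P(T) = 0` in `heckeAlgebra N 2 S` then every `B` intertwined with `P(t)` on `Λ` is
  zero on `Jtors N n` (all `n > 0`).
-/
import Mathlib
import Fermat.Agent.S40.J.KummerParEll
import Fermat.Agent.S40.J.ConverseFaithful
import Fermat.Agent.S16.LiftGamma0

set_option autoImplicit false
set_option linter.unusedSectionVars false

noncomputable section

namespace Fermat.Agent.S40.J.Rho4

open CongruenceSubgroup ModularCurve
open scoped MatrixGroups
open Fermat.Agent.N4F.Res Fermat.Agent.N4F.Tors.HeckeHom Fermat.Agent.N4F.Tors.Outputs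
  Fermat.Agent.N4F.Adic.HeckeFaithful Fermat.Agent.S40.J.KummerParEll
  Fermat.Agent.N4F.Tors.Occurrence

variable (N : ℕ) [NeZero N]

/-- `Jtors N n ≃+ parHomAdd N (ZMod n)`. -/
def kappaEquiv (n : ℕ) (hn : 0 < n) : Jtors N n ≃+ parHomAdd N (ZMod n) :=
  AddEquiv.ofBijective
    ((kappa N n).codRestrict (parHomAdd N (ZMod n)) (kappa_mem_parHomAdd N n hn))
    ⟨fun x y h => kappa_injective N n hn (congrArg Subtype.val h),
      fun ψ => by
        obtain ⟨x, hx⟩ := kappa_surjective N n hn ψ.1 ψ.2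
        exact ⟨x, Subtype.ext hx⟩⟩

@[simp] theorem coe_kappaEquiv (n : ℕ) (hn : 0 < n) (x : Jtors N n) :
    ((kappaEquiv N n hn x : parHomAdd N (ZMod n)) : Additive ↥(Gamma0 N) →+ ZMod n) =
      kappa N n x := rfl

/-- reduction mod `n` of an integral parabolic-elliptic homomorphism -/
def red (n : ℕ) (ψ : parHomAdd N ℤ) : Additive ↥(Gamma0 N) →+ ZMod n :=
  (Int.castAddHom (ZMod n)).comp ψ.1

theorem red_add (n : ℕ) (ψ ψ' : parHomAdd N ℤ) : red N n (ψ + ψ') = red N n ψ + red N n ψ' :=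
  AddMonoidHom.comp_add _ ψ.1 ψ'.1

theorem red_zero (n : ℕ) : red N n 0 = 0 := AddMonoidHom.comp_zero _

theorem red_zsmul (n : ℕ) (a : ℤ) (ψ : parHomAdd N ℤ) : red N n (a • ψ) = a • red N n ψ := by
  refine AddMonoidHom.ext fun x => ?_
  simp [red]

/-- every Kummer class lifts to the lattice -/
theorem exists_lift_kappa (n : ℕ) (hn : 0 < n) (x : Jtors N n) :
    ∃ ψ : parHomAdd N ℤ, kappa N n x = red N n ψ := by
  obtain ⟨ψ, hψ, h⟩ := Fermat.Agent.S16.LiftGamma0.exists_lift_parHomAdd' N n hn (kappa N n x)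
    (kappa_mem_parHomAdd N n hn x)
  exact ⟨⟨ψ, hψ⟩, h.symm⟩

/-- `A` on the lattice and `B` on `Jtors N n` are intertwined by the Kummer map. -/
def TorsRel (n : ℕ) (A : Module.End ℤ ↥(parHomAdd N ℤ)) (B : Jtors N n →+ Jtors N n) : Prop :=
  ∀ (ψ : parHomAdd N ℤ) (x : Jtors N n), kappa N n x = red N n ψ →
    kappa N n (B x) = red N n (A ψ)

variable {N}

theorem TorsRel.add {n : ℕ} {A A' : Module.End ℤ ↥(parHomAdd N ℤ)} {B B' : Jtors N n →+ Jtors N n}
    (h : TorsRel N n A B) (h' : TorsRel N n A' B') : TorsRel N n (A + A') (B + B') := by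
  intro ψ x hx
  rw [AddMonoidHom.add_apply, map_add, h ψ x hx, h' ψ x hx, LinearMap.add_apply, red_add]

theorem TorsRel.mul {n : ℕ} {A A' : Module.End ℤ ↥(parHomAdd N ℤ)} {B B' : Jtors N n →+ Jtors N n}
    (h : TorsRel N n A B) (h' : TorsRel N n A' B') : TorsRel N n (A * A') (B.comp B') := by
  intro ψ x hx
  exact h (A' ψ) (B' x) (h' ψ x hx)

theorem torsRel_zero (n : ℕ) : TorsRel N n 0 0 := by
  intro ψ x _
  rw [AddMonoidHom.zero_apply, map_zero, LinearMap.zero_apply, red_zero]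

theorem torsRel_one (n : ℕ) : TorsRel N n 1 (AddMonoidHom.id _) := fun _ _ hx => hx

theorem torsRel_int (n : ℕ) (a : ℤ) :
    TorsRel N n (algebraMap ℤ (Module.End ℤ ↥(parHomAdd N ℤ)) a) (a • AddMonoidHom.id _) := by
  intro ψ x hx
  have e : (a • AddMonoidHom.id (Jtors N n)) x = a • x := rfl
  rw [e, map_zsmul, hx, Module.algebraMap_end_apply, red_zsmul]

theorem torsRel_hecke (n : ℕ) (hn : 0 < n) (ℓ : Nat.Primes) (hℓN : ¬ (ℓ : ℕ) ∣ N) :
    TorsRel N n (heckeLattice N ℓ hℓN) (heckeTorsAdd N n ℓ) := by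
  intro ψ x hx
  rw [kappa_hecke N n hn ℓ hℓN, hx]
  exact heckeAddP_comp N ℓ hℓN (Int.castAddHom (ZMod n)) ψ.1

/-- an endomorphism of `Jtors N n` intertwined with `0` is `0` -/
theorem eq_zero_of_torsRel_zero {n : ℕ} (hn : 0 < n) {B : Jtors N n →+ Jtors N n}
    (h : TorsRel N n 0 B) : B = 0 := by
  refine AddMonoidHom.ext fun x => ?_
  obtain ⟨ψ, hψ⟩ := exists_lift_kappa N n hn x
  apply kappa_injective N n hn
  rw [h ψ x hψ, LinearMap.zero_apply, red_zero, AddMonoidHom.zero_apply, map_zero]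

/-- **(ρ4)**: a polynomial in the Hecke operators which is zero on `S₂(Γ₀(N))` is zero on
`J₀(N)(Q̄)[n]`, for every `n > 0`. -/
theorem rho4 (S : Set ℕ) (P : MvPolynomial (Idx N S) ℤ)
    (hP : MvPolynomial.aeval (tAlg N S) P = 0) {n : ℕ} (hn : 0 < n)
    {B : Jtors N n →+ Jtors N n}
    (h : TorsRel N n (polyAct (R := ℤ) (tLat N S) (tLat_commute N S) P) B) : B = 0 := by
  rw [ConverseFaithful.polyAct_eq_zero_of_aeval_eq_zero N S (tLat_commute N S) P hP] at h
  exact eq_zero_of_torsRel_zero hn h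

/-! ### Divisibility of the torsion -/

variable (N)

/-- **The torsion of `J₀(N)(Q̄)` is divisible**: every `x ∈ J₀(N)[n]` is `m • y` with
`y ∈ J₀(N)[n m]` (`n, m > 0`). -/
theorem exists_nsmul_eq_of_mem_Jtors (n m : ℕ) (hn : 0 < n) (hm : 0 < m) (x : Jtors N n) :
    ∃ y : Jtors N (n * m), m • (y : JZero N) = (x : JZero N) := by
  have hnm : 0 < n * m := Nat.mul_pos hn hm
  obtain ⟨ψ, hψ⟩ := exists_lift_kappa N n hn x
  obtain ⟨y, hy⟩ := kappa_surjective N (n * m) hnm (red N (n * m) ψ) (by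
    rw [mem_parHomAdd]
    intro g hg
    show ((ψ.1 (Additive.ofMul g) : ℤ) : ZMod (n * m)) = 0
    rw [(mem_parHomAdd N).mp ψ.2 g hg]
    simp)
  refine ⟨y, ?_⟩
  have hdiv : n * m / n = m := Nat.mul_div_cancel_left m hn
  have hmem : (n * m / n) • (y : JZero N) ∈ Jtors N n := by
    rw [hdiv]
    have h1 := y.2
    rw [mem_Jtors_iff] at h1 ⊢
    rw [← h1, smul_smul]
  have h2 := kappa_compat N n (n * m) (dvd_mul_right n m) hnm y hmem
  have h3 : (⟨(n * m / n) • (y : JZero N), hmem⟩ : Jtors N n) = x := by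
    apply kappa_injective N n hn
    rw [h2, hy, hψ]
    refine AddMonoidHom.ext fun g => ?_
    simp [red]
  have h4 := congrArg (fun z : Jtors N n => (z : JZero N)) h3
  simp only [hdiv] at h4
  exact h4

end Fermat.Agent.S40.J.Rho4
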